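import Fermat.Agent.S16.H496.U4
import Fermat.Agent.S16.H377.SkelFR
import Fermat.Agent.S16.H260.QCalc

/-!
# S16 / helper496: WP U4 in the exact skeleton shape

`U4` : no `G ∈ M₂(Γ₀(p))`, `p ≡ 7 mod 8`, has integral `q`-expansion `≡ odd constant mod 8`.

Bridge from the function-level objects of `Fermat.Agent.S16.Defs` (`MF`, `qCoeff`, `hat`, `tr`,
`heckeU`) to the abstract statement `U4_core` (file `U4.lean`): the only input is the
`q`-expansion of `p^a · Tr(G^a) = p^a G^a + (-1)^a p U_p((U_p G)^a)` (level one, weight `2a`).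
-/

set_option autoImplicit false

noncomputable section

namespace Fermat.Agent.S16.H496

open UpperHalfPlane ModularForm CongruenceSubgroup MatrixGroups ModularFormClass
open Fermat.Agent.S20 (MF SF)
open Fermat.Agent.S16.H260 (Nice)

section general

variable {Γ : Subgroup SL(2, ℤ)}

theorem mul_mem_MF_h {a k : ℤ} {f g : ℍ → ℂ} (hf : f ∈ MF Γ a) (hg : g ∈ MF Γ k) :
    f * g ∈ MF Γ (a + k) := by
  obtain ⟨hf1, hf2, hf3⟩ := hf
  obtain ⟨hg1, hg2, hg3⟩ := hg
  refine ⟨hf1.mul hg1, fun γ hγ => ?_, fun γ => ?_⟩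
  · rw [ModularForm.mul_slash_SL2, hf2 γ hγ, hg2 γ hγ]
  · rw [ModularForm.mul_slash_SL2]
    exact (hf3 γ).mul (hg3 γ)

theorem one_mem_MF_h : (1 : ℍ → ℂ) ∈ MF Γ 0 := by
  refine ⟨mdifferentiable_const, fun γ _ => ModularForm.is_invariant_one γ, fun γ => ?_⟩
  rw [ModularForm.is_invariant_one γ]
  exact Filter.const_boundedAtFilter _ (1 : ℂ)

theorem pow_mem_MF_h {f : ℍ → ℂ} {k : ℤ} (hf : f ∈ MF Γ k) (t : ℕ) :
    f ^ t ∈ MF Γ ((t : ℤ) * k) := by
  induction t with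
  | zero => simpa using one_mem_MF_h (Γ := Γ)
  | succ t ih =>
    rw [pow_succ']
    have h := mul_mem_MF_h hf ih
    have e : k + (t : ℤ) * k = ((t + 1 : ℕ) : ℤ) * k := by push_cast; ring
    exact e ▸ h

end general

theorem nice_one : Nice (1 : ℍ → ℂ) where
  per := fun _ => rfl
  hol := mdifferentiable_const
  bdd := Filter.const_boundedAtFilter _ (1 : ℂ)

theorem nice_pow {f : ℍ → ℂ} (hf : Nice f) (n : ℕ) : Nice (f ^ n) := by
  induction n with
  | zero => simpa using nice_one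
  | succ n ih =>
    rw [pow_succ]
    exact ih.mul hf

theorem qExpansion_pow_nice {f : ℍ → ℂ} (hf : Nice f) (n : ℕ) :
    qExpansion 1 (f ^ n) = qExpansion 1 f ^ n := by
  induction n with
  | zero => simp [qExpansion_one]
  | succ n ih =>
    rw [pow_succ, qExpansion_mul (nice_pow hf n).analyticAt hf.analyticAt, ih, pow_succ]

/-- `q`-expansion of the trace, coefficientwise. -/
theorem coeff_qExpansion_tr (p : ℕ) [hpp : Fact p.Prime] {k : ℤ} {F : ℍ → ℂ}
    (hF : F ∈ MF (Gamma0 p) k) (n : ℕ) :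
    PowerSeries.coeff n (qExpansion 1 (Fermat.Agent.S16.tr p k F))
      = PowerSeries.coeff n (qExpansion 1 F)
        + (p : ℂ) ^ (1 - k) * PowerSeries.coeff (n * p) (qExpansion 1 (hat p k F)) := by
  have hp0 : p ≠ 0 := hpp.out.ne_zero
  have hN : Nice F := H260.nice_of_mem_MF_Gamma0 hF
  have hNh : Nice (hat p k F) := H260.nice_of_mem_MF_Gamma0 (H377.FR.hat_mem_MF p hF)
  have hNu : Nice (heckeU k p (hat p k F)) := hNh.heckeU k p
  unfold Fermat.Agent.S16.tr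
  rw [qExpansion_add hN.analyticAt (hNu.smul _).analyticAt, map_add,
    qExpansion_smul hNu.analyticAt, PowerSeries.coeff_smul]
  congr 2
  exact H260.qCoeff_heckeU hNh k hp0 n

theorem coeff_map_Sser (p : ℕ) (g : PowerSeries ℤ) (a n : ℕ) :
    PowerSeries.coeff n ((Sser p g a).map (Int.castRingHom ℂ))
      = (p : ℂ) ^ a * PowerSeries.coeff n ((g.map (Int.castRingHom ℂ)) ^ a)
        + (-1) ^ a * (p : ℂ) *
          PowerSeries.coeff (p * n) (((Uop p g).map (Int.castRingHom ℂ)) ^ a) := by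
  have e1 : (p : PowerSeries ℤ) ^ a = PowerSeries.C ((p : ℤ) ^ a) := by simp
  have e2 : ((-1 : PowerSeries ℤ)) ^ a * (p : PowerSeries ℤ)
      = PowerSeries.C ((-1 : ℤ) ^ a * p) := by simp
  have e3 : ((g.map (Int.castRingHom ℂ)) ^ a) = (g ^ a).map (Int.castRingHom ℂ) :=
    (map_pow (PowerSeries.map (Int.castRingHom ℂ)) g a).symm
  have e4 : (((Uop p g).map (Int.castRingHom ℂ)) ^ a)
      = ((Uop p g) ^ a).map (Int.castRingHom ℂ) :=
    (map_pow (PowerSeries.map (Int.castRingHom ℂ)) (Uop p g) a).symm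
  rw [Sser, e1, e2, e3, e4, PowerSeries.coeff_map, PowerSeries.coeff_map,
    PowerSeries.coeff_map, map_add, PowerSeries.coeff_C_mul, PowerSeries.coeff_C_mul, coeff_Uop]
  simp only [eq_intCast]
  push_cast
  ring

/-- **The interface (PS)**: `p^a Tr(G^a)` is a level-one form of weight `2a` with integral
`q`-expansion `p^a g^a + (-1)^a p U_p((U_p g)^a)`. -/
theorem powerSumData_of (p : ℕ) [hpp : Fact p.Prime] {G : ℍ → ℂ} (hG : G ∈ MF (Gamma0 p) 2)
    (g : PowerSeries ℤ) (hg : qExpansion 1 G = g.map (Int.castRingHom ℂ)) :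
    PowerSumData p g
      (fun a => (p : ℂ) ^ a • Fermat.Agent.S16.tr p ((a : ℤ) * 2) (G ^ a)) := by
  intro a
  have hp0 : p ≠ 0 := hpp.out.ne_zero
  have hpC : (p : ℂ) ≠ 0 := by exact_mod_cast hp0
  have hGa : G ^ a ∈ MF (Gamma0 p) ((a : ℤ) * 2) := pow_mem_MF_h hG a
  have htr := H377.FR.tr_mem_MF p hGa
  have hsm : (p : ℂ) ^ a • Fermat.Agent.S16.tr p ((a : ℤ) * 2) (G ^ a) ∈ MF ⊤ ((a : ℤ) * 2) :=
    (MF ⊤ _).smul_mem _ htr
  obtain ⟨F', hF'⟩ := Fermat.Agent.S20.C0h516.mem_MF_top_iff_exists.mp hsm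
  refine IsL1.cast (show (a : ℤ) * 2 = 2 * (a : ℤ) by ring) ⟨F', hF', ?_⟩
  have hNG : Nice G := H260.nice_of_mem_MF_Gamma0 hG
  have hNU : Nice (heckeU 2 p G) := hNG.heckeU 2 p
  have hNtr : Nice (Fermat.Agent.S16.tr p ((a : ℤ) * 2) (G ^ a)) := H260.nice_of_mem_MF_top htr
  have hU : qExpansion 1 (heckeU 2 p G) = (Uop p g).map (Int.castRingHom ℂ) := by
    ext m
    rw [PowerSeries.coeff_map, coeff_Uop]
    have h1 : PowerSeries.coeff m (qExpansion 1 (heckeU 2 p G))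
        = PowerSeries.coeff (m * p) (qExpansion 1 G) := H260.qCoeff_heckeU hNG 2 hp0 m
    rw [h1, hg, PowerSeries.coeff_map, mul_comm]
  rw [qExpansion_smul hNtr.analyticAt]
  ext n
  rw [PowerSeries.coeff_smul, coeff_qExpansion_tr p hGa n, qExpansion_pow_nice hNG, hg,
    H377.FR.hat_pow p 2 a G, H377.FR.hat_two p hG, smul_pow,
    qExpansion_smul (nice_pow hNU a).analyticAt, qExpansion_pow_nice hNU, hU,
    PowerSeries.coeff_smul, coeff_map_Sser, mul_comm n p]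
  have hz : (p : ℂ) ^ (1 - (a : ℤ) * 2) = (p : ℂ) * ((p : ℂ) ^ a)⁻¹ * ((p : ℂ) ^ a)⁻¹ := by
    rw [show (1 : ℤ) - (a : ℤ) * 2 = 1 + (-(a : ℤ) + -(a : ℤ)) by ring, zpow_add₀ hpC,
      zpow_add₀ hpC, zpow_one, zpow_neg, zpow_natCast]
    ring
  rw [hz, neg_pow]
  have hpa : (p : ℂ) ^ a ≠ 0 := pow_ne_zero _ hpC
  generalize (p : ℂ) ^ a = Pa at hpa ⊢
  rw [smul_eq_mul, smul_eq_mul]
  field_simp

/-- **WP U4**, exact skeleton statement. -/
theorem U4 (p : ℕ) [Fact p.Prime] (hp8 : p % 8 = 7) {G : ℍ → ℂ} (hG : G ∈ MF (Gamma0 p) 2)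
    (s : ℤ) (hs : Odd s) (h0 : qCoeff G 0 = (s : ℂ))
    (hcong : ∀ k : ℕ, 1 ≤ k → ∃ m : ℤ, qCoeff G k = 8 * (m : ℂ)) : False := by
  choose! m hm using hcong
  obtain ⟨y, hy⟩ : ∃ y : PowerSeries ℤ, y = PowerSeries.mk fun n => if n = 0 then 0 else m n :=
    ⟨_, rfl⟩
  have hg : qExpansion 1 G
      = ((s : PowerSeries ℤ) + 8 * y).map (Int.castRingHom ℂ) := by
    ext n
    have e8 : (8 : PowerSeries ℤ) = PowerSeries.C (8 : ℤ) := by simp
    have es : (s : PowerSeries ℤ) = PowerSeries.C s := by simp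
    rw [PowerSeries.coeff_map, map_add, e8, es, PowerSeries.coeff_C_mul, PowerSeries.coeff_C, hy,
      PowerSeries.coeff_mk]
    by_cases hn : n = 0
    · subst hn
      have h0' : PowerSeries.coeff 0 (qExpansion 1 G) = (s : ℂ) := h0
      rw [h0', if_pos rfl, if_pos rfl]
      simp only [eq_intCast]
      push_cast
      ring
    · have h1 : PowerSeries.coeff n (qExpansion 1 G) = 8 * (m n : ℂ) :=
        hm n (Nat.one_le_iff_ne_zero.mpr hn)
      rw [h1, if_neg hn, if_neg hn]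
      simp only [eq_intCast]
      push_cast
      ring
  obtain ⟨r, hr⟩ := hs
  have hp : (p : ℤ) = 8 * ((p : ℤ) / 8 + 1) - 1 := by omega
  exact U4_core p _ s ((p : ℤ) / 8 + 1) r y hp hr rfl _ (powerSumData_of p hG _ hg)

end Fermat.Agent.S16.H496
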