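import Mathlib

/-!
# S16 / helper496: the formal operators `U_p`, `V_p` on integral power series

* `Uop p f = ∑ f_{pn} qⁿ`, `Vop p f = ∑ f_n q^{pn}`, both `ℤ`-linear;
* `Uop_Vop_mul : Uop p (Vop p f * g) = f * Uop p g` (for `p ≠ 0`).
-/

set_option autoImplicit false

namespace Fermat.Agent.S16.H496

open PowerSeries

/-- `U_p` on integral power series: `(U_p f)_n = f_{pn}`. -/
noncomputable def Uop (p : ℕ) : PowerSeries ℤ →ₗ[ℤ] PowerSeries ℤ where
  toFun f := PowerSeries.mk fun n => coeff (p * n) f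
  map_add' f g := by ext n; simp
  map_smul' c f := by
    ext n
    simp only [RingHom.id_apply]
    rw [zsmul_eq_mul, zsmul_eq_mul, ← map_intCast (C : ℤ →+* PowerSeries ℤ), coeff_C_mul,
      coeff_mk, coeff_mk, coeff_C_mul]

/-- `V_p` on integral power series: `(V_p f)(q) = f(q^p)`. -/
noncomputable def Vop (p : ℕ) : PowerSeries ℤ →ₗ[ℤ] PowerSeries ℤ where
  toFun f := PowerSeries.mk fun n => if p ∣ n then coeff (n / p) f else 0
  map_add' f g := by
    ext n
    by_cases h : p ∣ n <;> simp [h]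
  map_smul' c f := by
    ext n
    simp only [RingHom.id_apply]
    rw [zsmul_eq_mul, zsmul_eq_mul, ← map_intCast (C : ℤ →+* PowerSeries ℤ), coeff_C_mul,
      coeff_mk, coeff_mk]
    by_cases h : p ∣ n
    · rw [if_pos h, if_pos h, coeff_C_mul]
    · rw [if_neg h, if_neg h, mul_zero]

@[simp] theorem coeff_Uop (p n : ℕ) (f : PowerSeries ℤ) :
    coeff n (Uop p f) = coeff (p * n) f := by
  simp [Uop]

@[simp] theorem coeff_Vop (p n : ℕ) (f : PowerSeries ℤ) :
    coeff n (Vop p f) = if p ∣ n then coeff (n / p) f else 0 := by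
  simp [Vop]

theorem coeff_Vop_mul (p : ℕ) (hp : p ≠ 0) (n : ℕ) (f : PowerSeries ℤ) :
    coeff (p * n) (Vop p f) = coeff n f := by
  rw [coeff_Vop, if_pos (dvd_mul_right p n), Nat.mul_div_cancel_left n (Nat.pos_of_ne_zero hp)]

theorem Uop_one (p : ℕ) (hp : p ≠ 0) : Uop p 1 = 1 := by
  ext n
  rw [coeff_Uop, coeff_one, coeff_one]
  simp [hp]

theorem Vop_one (p : ℕ) (hp : p ≠ 0) : Vop p 1 = 1 := by
  ext n
  rw [coeff_Vop, coeff_one, coeff_one]
  by_cases hn : n = 0
  · subst hn; simp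
  · rw [if_neg hn]
    by_cases h : p ∣ n
    · rw [if_pos h, if_neg]
      intro h0
      exact hn (by
        obtain ⟨m, rfl⟩ := h
        rw [Nat.mul_div_cancel_left m (Nat.pos_of_ne_zero hp)] at h0
        simp [h0])
    · rw [if_neg h]

theorem Uop_intCast (p : ℕ) (hp : p ≠ 0) (c : ℤ) : Uop p (c : PowerSeries ℤ) = c := by
  have : (c : PowerSeries ℤ) = c • (1 : PowerSeries ℤ) := by simp
  rw [this, map_smul, Uop_one p hp]

theorem Vop_intCast (p : ℕ) (hp : p ≠ 0) (c : ℤ) : Vop p (c : PowerSeries ℤ) = c := by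
  have : (c : PowerSeries ℤ) = c • (1 : PowerSeries ℤ) := by simp
  rw [this, map_smul, Vop_one p hp]

theorem Uop_intCast_mul (p : ℕ) (c : ℤ) (f : PowerSeries ℤ) :
    Uop p ((c : PowerSeries ℤ) * f) = (c : PowerSeries ℤ) * Uop p f := by
  have h : ∀ g : PowerSeries ℤ, (c : PowerSeries ℤ) * g = c • g := fun g => by simp
  rw [h, h, map_smul]

theorem Vop_intCast_mul (p : ℕ) (c : ℤ) (f : PowerSeries ℤ) :
    Vop p ((c : PowerSeries ℤ) * f) = (c : PowerSeries ℤ) * Vop p f := by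
  have h : ∀ g : PowerSeries ℤ, (c : PowerSeries ℤ) * g = c • g := fun g => by simp
  rw [h, h, map_smul]

/-- The key identity `U_p (V_p f · g) = f · U_p g`. -/
theorem Uop_Vop_mul (p : ℕ) (hp : p ≠ 0) (f g : PowerSeries ℤ) :
    Uop p (Vop p f * g) = f * Uop p g := by
  ext n
  rw [coeff_Uop, coeff_mul, coeff_mul]
  have hinj : Function.Injective (fun x : ℕ × ℕ => (p * x.1, p * x.2)) := by
    intro x y hxy
    simp only [Prod.mk.injEq] at hxy
    have hp' : 0 < p := Nat.pos_of_ne_zero hp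
    exact Prod.ext (Nat.eq_of_mul_eq_mul_left hp' hxy.1) (Nat.eq_of_mul_eq_mul_left hp' hxy.2)
  have himg : (Finset.HasAntidiagonal.antidiagonal n).image (fun x : ℕ × ℕ => (p * x.1, p * x.2))
      ⊆ Finset.HasAntidiagonal.antidiagonal (p * n) := by
    intro x hx
    obtain ⟨y, hy, rfl⟩ := Finset.mem_image.mp hx
    rw [Finset.HasAntidiagonal.mem_antidiagonal] at hy ⊢
    rw [← hy]; ring
  rw [← Finset.sum_subset himg]
  · rw [Finset.sum_image (fun x _ y _ h => hinj h)]
    refine Finset.sum_congr rfl fun x _ => ?_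
    rw [coeff_Vop_mul p hp, coeff_Uop]
  · intro x hx hx'
    rw [Finset.HasAntidiagonal.mem_antidiagonal] at hx
    have hnd : ¬ p ∣ x.1 := by
      rintro ⟨a, ha⟩
      apply hx'
      have hb : p ∣ x.2 := by
        have : p ∣ x.1 + x.2 := by rw [hx]; exact dvd_mul_right p n
        exact (Nat.dvd_add_right ⟨a, ha⟩).mp this
      obtain ⟨b, hb⟩ := hb
      refine Finset.mem_image.mpr ⟨(a, b), ?_, ?_⟩
      · rw [Finset.HasAntidiagonal.mem_antidiagonal]
        have hp' : 0 < p := Nat.pos_of_ne_zero hp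
        apply Nat.eq_of_mul_eq_mul_left hp'
        rw [mul_add, ← ha, ← hb, hx]
      · exact Prod.ext ha.symm hb.symm
    rw [coeff_Vop, if_neg hnd, zero_mul]

/-- Iterated form: `U_p ((V_p f)^b · g) = f^b · U_p g`. -/
theorem Uop_Vop_pow_mul (p : ℕ) (hp : p ≠ 0) (f g : PowerSeries ℤ) (b : ℕ) :
    Uop p ((Vop p f) ^ b * g) = f ^ b * Uop p g := by
  induction b generalizing g with
  | zero => simp
  | succ b ih =>
    rw [pow_succ, mul_assoc, ih, Uop_Vop_mul p hp, pow_succ, mul_assoc]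

end Fermat.Agent.S16.H496
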