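import Mathlib
import Fermat.Agent.S22T.DeltaInt
import Fermat.Agent.S16.H496.UV

/-!
# S16 / helper496: the 2-adic congruences of step U4 (`p ≡ 7 mod 8`)

Pure ring identities (`id_*`), the parity `σ₃ ≡ σ₅ mod 2`, and the resulting statement in the
"pair ring" `ℤ⟦q⟧ × ℤ⟦q⟧` (first component = expansion at `∞`, second = Fricke expansion):
for `γ = (g, -p U_p g)`, `ε₄ = (E₄, p⁴ V_p E₄)`, `ε₆ = (E₆, p⁶ V_p E₆)`, `g ≡ s mod 8`, `s` odd,
`p ≡ -1 mod 8` there are `μ κ w` with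
`γ² - s² ε₄ = 16 μ`, `γ ε₄ - s ε₆ = 8 κ`, `γ μ - κ = 2 w`.
-/

set_option autoImplicit false

namespace Fermat.Agent.S16.H496

open PowerSeries

section RingIdentities

variable {R : Type*} [CommRing R]

theorem id_mu1 (s y A : R) :
    (s + 8 * y) ^ 2 - s ^ 2 * (1 + 240 * A) = 16 * (s * y + 4 * y ^ 2 - 15 * s ^ 2 * A) := by
  ring

theorem id_ka1 (s y A B : R) :
    (s + 8 * y) * (1 + 240 * A) - s * (1 - 504 * B)
      = 8 * (y + 30 * s * A + 240 * y * A + 63 * s * B) := by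
  ring

theorem id_w1 (s r y A B C : R) (hs : s = 2 * r + 1) (hB : B = A - 2 * C) :
    (s + 8 * y) * (s * y + 4 * y ^ 2 - 15 * s ^ 2 * A)
        - (y + 30 * s * A + 240 * y * A + 63 * s * B)
      = 2 * (2 * (r * (r + 1)) * y + 2 * s * y ^ 2 - s * A * (54 + 30 * (r * (r + 1)))
          + 63 * s * C + 4 * y * (s * y + 4 * y ^ 2 - 15 * s ^ 2 * A) - 120 * y * A) := by
  subst hs hB
  ring

theorem id_mu2 (s p t y A : R) (hp : p = 8 * t - 1) :
    (-p * (s + 8 * y)) ^ 2 - s ^ 2 * (p ^ 4 * (1 + 240 * A))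
      = 16 * (p ^ 2 * (s ^ 2 * (t * (1 - 4 * t)) + s * y + 4 * y ^ 2 - 15 * s ^ 2 * p ^ 2 * A)) := by
  subst hp
  ring

theorem id_ka2 (s p t y A B : R) (hp : p = 8 * t - 1) :
    (-p * (s + 8 * y)) * (p ^ 4 * (1 + 240 * A)) - s * (p ^ 6 * (1 - 504 * B))
      = 8 * (-(p ^ 5 * (s * t + y + 30 * s * A + 240 * y * A - 63 * s * p * B))) := by
  subst hp
  ring

theorem id_w2 (s r p t y A B C : R) (hs : s = 2 * r + 1) (hp : p = 8 * t - 1)
    (hB : B = A - 2 * C) :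
    (-p * (s + 8 * y)) *
        (p ^ 2 * (s ^ 2 * (t * (1 - 4 * t)) + s * y + 4 * y ^ 2 - 15 * s ^ 2 * p ^ 2 * A))
      - (-(p ^ 5 * (s * t + y + 30 * s * A + 240 * y * A - 63 * s * p * B)))
      = 2 * (p ^ 3 * (-(2 * (r * (r + 1)) * s * t) + 2 * s ^ 3 * t ^ 2 - 2 * (r * (r + 1)) * y
          - 2 * s * y ^ 2 + 120 * y * A + 63 * s * p * C
          + s * A * (54 + 30 * (r * (r + 1)) - 120 * (t * (1 - 4 * t))
              - 480 * (r * (r + 1)) * (t * (1 - 4 * t)) - 252 * t)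
          - 4 * y * (s ^ 2 * (t * (1 - 4 * t)) + s * y + 4 * y ^ 2 - 15 * s ^ 2 * p ^ 2 * A)
          - 8 * (t * (1 - 4 * t)) *
              (s * t + y + 30 * s * A + 240 * y * A - 63 * s * p * B))) := by
  subst hs hp hB
  ring

end RingIdentities


open Fermat.Agent.S22T
open scoped ArithmeticFunction.sigma

/-! ### Parity of `σ₃ - σ₅` -/

theorem two_dvd_pow_sub (d : ℕ) : (2 : ℤ) ∣ (d : ℤ) ^ 3 - (d : ℤ) ^ 5 := by
  have h : ∀ x : ZMod 2, x ^ 3 - x ^ 5 = 0 := by decide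
  have h2 := h (d : ZMod 2)
  have h3 : (((d : ℤ) ^ 3 - (d : ℤ) ^ 5 : ℤ) : ZMod 2) = 0 := by
    push_cast
    exact h2
  exact (ZMod.intCast_zmod_eq_zero_iff_dvd _ 2).mp h3

theorem two_dvd_sigma_sub (n : ℕ) : (2 : ℤ) ∣ (σ 3 n : ℤ) - (σ 5 n : ℤ) := by
  rw [ArithmeticFunction.sigma_apply, ArithmeticFunction.sigma_apply]
  push_cast
  rw [← Finset.sum_sub_distrib]
  exact Finset.dvd_sum fun d _ => two_dvd_pow_sub d

/-- `σ₅ = σ₃ - 2 C` as power series. -/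
theorem exists_sigma_half : ∃ C : PowerSeries ℤ, sigmaSeries 5 = sigmaSeries 3 - 2 * C := by
  refine ⟨PowerSeries.mk fun n => if n = 0 then 0 else ((σ 3 n : ℤ) - (σ 5 n : ℤ)) / 2, ?_⟩
  ext n
  have h2 : (2 : PowerSeries ℤ) = PowerSeries.C (2 : ℤ) := by rw [map_ofNat]
  rw [map_sub, h2, PowerSeries.coeff_C_mul]
  simp only [sigmaSeries, PowerSeries.coeff_mk]
  split_ifs with hn
  · simp
  · rw [Int.mul_ediv_cancel' (two_dvd_sigma_sub n)]
    ring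

/-! ### The pair ring -/

/-- Integral `q`-expansion of `E₄`. -/
noncomputable def qE4 : PowerSeries ℤ := 1 + 240 * sigmaSeries 3

/-- Integral `q`-expansion of `E₆`. -/
noncomputable def qE6 : PowerSeries ℤ := 1 - 504 * sigmaSeries 5

/-- `γ = (g, -p · U_p g)`: expansions of `G` at `∞` and of its Fricke transform. -/
noncomputable def gam (p : ℕ) (g : PowerSeries ℤ) : PowerSeries ℤ × PowerSeries ℤ :=
  (g, -(p : PowerSeries ℤ) * Uop p g)

/-- `ε₄ = (E₄, p⁴ V_p E₄)`. -/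
noncomputable def eps4 (p : ℕ) : PowerSeries ℤ × PowerSeries ℤ :=
  (qE4, (p : PowerSeries ℤ) ^ 4 * Vop p qE4)

/-- `ε₆ = (E₆, p⁶ V_p E₆)`. -/
noncomputable def eps6 (p : ℕ) : PowerSeries ℤ × PowerSeries ℤ :=
  (qE6, (p : PowerSeries ℤ) ^ 6 * Vop p qE6)

theorem Uop_ofNat_mul (p : ℕ) (n : ℕ) [n.AtLeastTwo] (f : PowerSeries ℤ) :
    Uop p ((OfNat.ofNat n : PowerSeries ℤ) * f) = (OfNat.ofNat n : PowerSeries ℤ) * Uop p f := by
  have h : (OfNat.ofNat n : PowerSeries ℤ) = ((n : ℤ) : PowerSeries ℤ) := by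
    rw [Int.cast_natCast]
    exact (Nat.cast_ofNat (R := PowerSeries ℤ) (n := n)).symm
  rw [h, Uop_intCast_mul]

theorem Vop_ofNat_mul (p : ℕ) (n : ℕ) [n.AtLeastTwo] (f : PowerSeries ℤ) :
    Vop p ((OfNat.ofNat n : PowerSeries ℤ) * f) = (OfNat.ofNat n : PowerSeries ℤ) * Vop p f := by
  have h : (OfNat.ofNat n : PowerSeries ℤ) = ((n : ℤ) : PowerSeries ℤ) := by
    rw [Int.cast_natCast]
    exact (Nat.cast_ofNat (R := PowerSeries ℤ) (n := n)).symm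
  rw [h, Vop_intCast_mul]

/-- **U4-a.** The congruences `γ² ≡ s² ε₄ (16)`, `γ ε₄ ≡ s ε₆ (8)`, `γ μ ≡ κ (2)` in the pair
ring, for `g ≡ s mod 8`, `s` odd, `p ≡ -1 mod 8`. -/
theorem exists_mu_kappa_w (p : ℕ) (hp0 : p ≠ 0) (g : PowerSeries ℤ) (s t r : ℤ)
    (hp : (p : ℤ) = 8 * t - 1) (hs : s = 2 * r + 1) (y : PowerSeries ℤ)
    (hg : g = (s : PowerSeries ℤ) + 8 * y) :
    ∃ μ κ w : PowerSeries ℤ × PowerSeries ℤ,
      gam p g ^ 2 - (s : PowerSeries ℤ × PowerSeries ℤ) ^ 2 * eps4 p = 16 * μ ∧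
      gam p g * eps4 p - (s : PowerSeries ℤ × PowerSeries ℤ) * eps6 p = 8 * κ ∧
      gam p g * μ - κ = 2 * w := by
  obtain ⟨C, hC⟩ := exists_sigma_half
  have hS : (s : PowerSeries ℤ) = 2 * (r : PowerSeries ℤ) + 1 := by
    rw [hs]; push_cast; ring
  have hP : (p : PowerSeries ℤ) = 8 * (t : PowerSeries ℤ) - 1 := by
    have : ((p : ℤ) : PowerSeries ℤ) = ((8 * t - 1 : ℤ) : PowerSeries ℤ) := by rw [hp]
    push_cast at this
    exact this
  have hUg : Uop p g = (s : PowerSeries ℤ) + 8 * Uop p y := by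
    rw [hg, map_add, Uop_intCast p hp0, Uop_ofNat_mul]
  have hV4 : Vop p qE4 = 1 + 240 * Vop p (sigmaSeries 3) := by
    rw [qE4, map_add, Vop_one p hp0, Vop_ofNat_mul]
  have hB' : Vop p (sigmaSeries 5) = Vop p (sigmaSeries 3) - 2 * Vop p C := by
    rw [hC, map_sub, Vop_ofNat_mul]
  have hV6 : Vop p qE6 = 1 - 504 * Vop p (sigmaSeries 5) := by
    rw [qE6, map_sub, Vop_one p hp0, Vop_ofNat_mul]
  set S : PowerSeries ℤ := (s : PowerSeries ℤ) with hSdef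
  set Pp : PowerSeries ℤ := (p : PowerSeries ℤ) with hPdef
  set T : PowerSeries ℤ := (t : PowerSeries ℤ) with hTdef
  set Rr : PowerSeries ℤ := (r : PowerSeries ℤ) with hRdef
  set A := sigmaSeries 3 with hA
  set B := sigmaSeries 5 with hB
  set y' := Uop p y with hy'
  set A' := Vop p A with hA'
  set B' := Vop p B with hB'def
  set C' := Vop p C with hC'
  refine ⟨(S * y + 4 * y ^ 2 - 15 * S ^ 2 * A,
      Pp ^ 2 * (S ^ 2 * (T * (1 - 4 * T)) + S * y' + 4 * y' ^ 2 - 15 * S ^ 2 * Pp ^ 2 * A')),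
    (y + 30 * S * A + 240 * y * A + 63 * S * B,
      -(Pp ^ 5 * (S * T + y' + 30 * S * A' + 240 * y' * A' - 63 * S * Pp * B'))),
    (2 * (Rr * (Rr + 1)) * y + 2 * S * y ^ 2 - S * A * (54 + 30 * (Rr * (Rr + 1)))
          + 63 * S * C + 4 * y * (S * y + 4 * y ^ 2 - 15 * S ^ 2 * A) - 120 * y * A,
      Pp ^ 3 * (-(2 * (Rr * (Rr + 1)) * S * T) + 2 * S ^ 3 * T ^ 2 - 2 * (Rr * (Rr + 1)) * y'
          - 2 * S * y' ^ 2 + 120 * y' * A' + 63 * S * Pp * C'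
          + S * A' * (54 + 30 * (Rr * (Rr + 1)) - 120 * (T * (1 - 4 * T))
              - 480 * (Rr * (Rr + 1)) * (T * (1 - 4 * T)) - 252 * T)
          - 4 * y' * (S ^ 2 * (T * (1 - 4 * T)) + S * y' + 4 * y' ^ 2 - 15 * S ^ 2 * Pp ^ 2 * A')
          - 8 * (T * (1 - 4 * T)) *
              (S * T + y' + 30 * S * A' + 240 * y' * A' - 63 * S * Pp * B'))), ?_, ?_, ?_⟩
  · refine Prod.ext ?_ ?_
    · simp only [gam, eps4, Prod.fst_sub, Prod.fst_mul, Prod.pow_fst, Prod.fst_intCast,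
        Prod.fst_ofNat]
      rw [hg, qE4]
      exact id_mu1 S y A
    · simp only [gam, eps4, Prod.snd_sub, Prod.snd_mul, Prod.pow_snd, Prod.snd_intCast,
        Prod.snd_ofNat]
      rw [hUg, hV4]
      exact id_mu2 S Pp T y' A' hP
  · refine Prod.ext ?_ ?_
    · simp only [gam, eps4, eps6, Prod.fst_sub, Prod.fst_mul, Prod.fst_intCast,
        Prod.fst_ofNat]
      rw [hg, qE4, qE6]
      exact id_ka1 S y A B
    · simp only [gam, eps4, eps6, Prod.snd_sub, Prod.snd_mul, Prod.snd_intCast,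
        Prod.snd_ofNat]
      rw [hUg, hV4, hV6]
      exact id_ka2 S Pp T y' A' B' hP
  · refine Prod.ext ?_ ?_
    · simp only [gam, Prod.fst_sub, Prod.fst_mul, Prod.fst_ofNat]
      rw [hg]
      exact id_w1 S Rr y A B C hS hC
    · simp only [gam, Prod.snd_sub, Prod.snd_mul, Prod.snd_ofNat]
      rw [hUg]
      exact id_w2 S Rr Pp T y' A' B' C' hS hP hB'

end Fermat.Agent.S16.H496
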