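import Mathlib
import Fermat.Agent.S22T.DeltaInt
import Fermat.Agent.S24.M7.H47Level1

/-!
# S16 / helper496: level-one forms with integral `q`-expansion, evaluation at `ρ`

* `IsL1 k F f` : `F : ℍ → ℂ` is a level-one modular form of weight `k` with `q`-expansion the
  integral power series `f`.
* closure under `+`, integer multiples, products; `E₄`, `E₆`, `Δ`, constants.
* `IsL1.exists_int_rho` : if `IsL1 (12 j) F f` then `F ρ = n · Δ(ρ)^j` for some integer `n`
  (`ρ = e^{2πi/3}`); `E₄ ρ = 0`, `E₆ ρ ^ 2 = -1728 Δ ρ`.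
-/

set_option autoImplicit false

namespace Fermat.Agent.S16.H496

open UpperHalfPlane ModularForm EisensteinSeries
open scoped MatrixGroups

local notation "Δ" => ModularForm.discriminant

/-- `F` is a level-one modular form of weight `k` whose `q`-expansion is the integral series `f`. -/
def IsL1 (k : ℤ) (F : ℍ → ℂ) (f : PowerSeries ℤ) : Prop :=
  ∃ F' : ModularForm 𝒮ℒ k, (⇑F' = F) ∧ qExpansion 1 F = f.map (Int.castRingHom ℂ)

theorem IsL1.cast {k l : ℤ} (h : k = l) {F : ℍ → ℂ} {f : PowerSeries ℤ} (hF : IsL1 k F f) :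
    IsL1 l F f := h ▸ hF

theorem IsL1.congr {k : ℤ} {F : ℍ → ℂ} {f g : PowerSeries ℤ} (hF : IsL1 k F f) (h : f = g) :
    IsL1 k F g := h ▸ hF

theorem IsL1.add {k : ℤ} {F G : ℍ → ℂ} {f g : PowerSeries ℤ} (hF : IsL1 k F f)
    (hG : IsL1 k G g) : IsL1 k (F + G) (f + g) := by
  obtain ⟨F', rfl, hf⟩ := hF
  obtain ⟨G', rfl, hg⟩ := hG
  refine ⟨F' + G', rfl, ?_⟩
  rw [ModularForm.qExpansion_add one_pos one_mem_strictPeriods_SL, hf, hg, map_add]

theorem IsL1.csmul {k : ℤ} {F : ℍ → ℂ} {f g : PowerSeries ℤ} (hF : IsL1 k F f) (c : ℂ)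
    (h : c • f.map (Int.castRingHom ℂ) = g.map (Int.castRingHom ℂ)) : IsL1 k (c • F) g := by
  obtain ⟨F', rfl, hf⟩ := hF
  refine ⟨c • F', rfl, ?_⟩
  rw [ModularForm.qExpansion_smul one_pos one_mem_strictPeriods_SL, hf, h]

theorem IsL1.zsmul {k : ℤ} {F : ℍ → ℂ} {f : PowerSeries ℤ} (hF : IsL1 k F f) (n : ℤ) :
    IsL1 k ((n : ℂ) • F) ((n : PowerSeries ℤ) * f) := by
  refine hF.csmul n ?_
  ext m
  rw [map_mul, map_intCast, ← map_intCast (PowerSeries.C : ℂ →+* PowerSeries ℂ),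
    PowerSeries.coeff_C_mul, PowerSeries.coeff_smul, smul_eq_mul]

theorem IsL1.mul {k l : ℤ} {F G : ℍ → ℂ} {f g : PowerSeries ℤ} (hF : IsL1 k F f)
    (hG : IsL1 l G g) : IsL1 (k + l) (F * G) (f * g) := by
  obtain ⟨F', rfl, hf⟩ := hF
  obtain ⟨G', rfl, hg⟩ := hG
  refine ⟨F'.mul G', rfl, ?_⟩
  rw [ModularForm.qExpansion_mul_coe one_pos one_mem_strictPeriods_SL, hf, hg, map_mul]


theorem IsL1.pow {k : ℤ} {F : ℍ → ℂ} {f : PowerSeries ℤ} (hF : IsL1 k F f) (n : ℕ) :
    IsL1 (n * k) (F ^ n) (f ^ n) := by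
  obtain ⟨F', rfl, hf⟩ := hF
  refine ⟨F'.pow n, ModularForm.coe_pow F' n, ?_⟩
  rw [← ModularForm.coe_pow, ModularForm.qExpansion_pow one_pos one_mem_strictPeriods_SL, hf,
    map_pow]

theorem isL1_E4 : IsL1 4 (⇑E₄) (1 + 240 * Fermat.Agent.S22T.sigmaSeries 3) :=
  ⟨E₄, rfl, Fermat.Agent.S22T.qExpansion_E4⟩

theorem isL1_E6 : IsL1 6 (⇑E₆) (1 - 504 * Fermat.Agent.S22T.sigmaSeries 5) :=
  ⟨E₆, rfl, Fermat.Agent.S22T.qExpansion_E6⟩

theorem IsL1.sum {ι : Type*} (s : Finset ι) {k : ℤ} {F : ι → ℍ → ℂ} {f : ι → PowerSeries ℤ}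
    (h : ∀ i ∈ s, IsL1 k (F i) (f i)) (hk : IsL1 k 0 0) :
    IsL1 k (∑ i ∈ s, F i) (∑ i ∈ s, f i) := by
  classical
  induction s using Finset.induction_on with
  | empty => simpa using hk
  | insert a s ha ih =>
    rw [Finset.sum_insert ha, Finset.sum_insert ha]
    exact (h a (Finset.mem_insert_self a s)).add
      (ih fun i hi => h i (Finset.mem_insert_of_mem hi))

theorem isL1_zero (k : ℤ) : IsL1 k 0 0 :=
  ⟨0, rfl, by rw [map_zero]; exact qExpansion_zero 1⟩


/-! ### Division by `Δ` preserves integrality -/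

/-- If `Δ · Q` has integer coefficients then so does `Q` (`Δ = q + …` with integer coefficients). -/
theorem exists_int_of_delta_mul (Q : PowerSeries ℂ) (g : PowerSeries ℤ)
    (h : (Fermat.Agent.S22T.deltaSeries).map (Int.castRingHom ℂ) * Q
      = g.map (Int.castRingHom ℂ)) :
    ∃ g1 : PowerSeries ℤ, Q = g1.map (Int.castRingHom ℂ) := by
  have key : ∀ n : ℕ, PowerSeries.coeff n Q ∈ (Int.castRingHom ℂ).range := by
    intro n
    induction n using Nat.strong_induction_on with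
    | _ n ih =>
    have h1 := congrArg (PowerSeries.coeff (n + 1)) h
    rw [PowerSeries.coeff_mul, PowerSeries.coeff_map] at h1
    have hmem : ((1 : ℕ), n) ∈ Finset.HasAntidiagonal.antidiagonal (n + 1) := by
      rw [Finset.HasAntidiagonal.mem_antidiagonal]; ring
    rw [← Finset.add_sum_erase _ _ hmem] at h1
    simp only [PowerSeries.coeff_map] at h1
    have ht1 : PowerSeries.coeff 1 Fermat.Agent.S22T.deltaSeries = 1 :=
      Fermat.Agent.S22T.tau_one
    rw [ht1] at h1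
    have hrest : (∑ x ∈ (Finset.HasAntidiagonal.antidiagonal (n + 1)).erase ((1 : ℕ), n),
        (Int.castRingHom ℂ) (PowerSeries.coeff x.1 Fermat.Agent.S22T.deltaSeries) *
          PowerSeries.coeff x.2 Q) ∈ (Int.castRingHom ℂ).range := by
      refine Subring.sum_mem _ fun x hx => ?_
      rw [Finset.mem_erase, Finset.HasAntidiagonal.mem_antidiagonal] at hx
      obtain ⟨hne, hsum⟩ := hx
      rcases Nat.eq_zero_or_pos x.1 with h0 | hpos
      · rw [h0]
        have ht0 : PowerSeries.coeff 0 Fermat.Agent.S22T.deltaSeries = 0 :=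
          Fermat.Agent.S22T.tau_zero
        rw [ht0]
        simp
      · have hx1 : x.1 ≠ 1 := by
          intro h1'
          apply hne
          ext
          · exact h1'
          · simp only; omega
        have hlt : x.2 < n := by omega
        exact Subring.mul_mem _ ⟨_, rfl⟩ (ih x.2 hlt)
    have : PowerSeries.coeff n Q = (Int.castRingHom ℂ) (PowerSeries.coeff (n + 1) g) -
        ∑ x ∈ (Finset.HasAntidiagonal.antidiagonal (n + 1)).erase ((1 : ℕ), n),
        (Int.castRingHom ℂ) (PowerSeries.coeff x.1 Fermat.Agent.S22T.deltaSeries) *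
          PowerSeries.coeff x.2 Q := by
      rw [← h1]; simp
    rw [this]
    exact Subring.sub_mem _ ⟨_, rfl⟩ hrest
  choose c hc using key
  refine ⟨PowerSeries.mk c, ?_⟩
  ext n
  rw [PowerSeries.coeff_map, PowerSeries.coeff_mk, hc]

/-! ### The elliptic point `ρ` (from `Fermat.Agent.S24.M7.H47`) -/

/-- The elliptic point `ρ = e^{2πi/3}`. -/
noncomputable abbrev rho : ℍ := Fermat.Agent.S24.M7.H47.rho

/-- `E₄(ρ) = 0`. -/
theorem E₄_rho : E₄ rho = 0 := Fermat.Agent.S24.M7.H47.E₄_rho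

theorem discriminant_rho_ne_zero : Δ rho ≠ 0 := discriminant_ne_zero rho

/-- `E₆(ρ)² = -1728 Δ(ρ)`. -/
theorem E₆_rho_sq : E₆ rho ^ 2 = -1728 * Δ rho := by
  have h := discriminant_eq_E₄_cube_sub_E₆_sq rho
  rw [E₄_rho] at h
  rw [h]
  ring


open Fermat.Agent.S22T in
/-- **Integrality of the value at `ρ`.** A level-one form of weight `12 j` with integral
`q`-expansion has `F(ρ) = n · Δ(ρ)^j` with `n ∈ ℤ`. -/
theorem IsL1.exists_int_rho (j : ℕ) : ∀ {F : ℍ → ℂ} {f : PowerSeries ℤ},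
    IsL1 (12 * (j : ℤ)) F f → ∃ n : ℤ, F rho = n * Δ rho ^ j := by
  induction j with
  | zero =>
    intro F f hF
    obtain ⟨F', rfl, hf⟩ := hF.cast (show 12 * ((0 : ℕ) : ℤ) = 0 by simp)
    obtain ⟨c, hc⟩ := ModularFormClass.levelOne_weight_zero_const F'
    have h1 : (F' : ℍ → ℂ) = c • (1 : ℍ → ℂ) := by rw [hc]; ext z; simp
    have hq : qExpansion 1 F' = c • (1 : PowerSeries ℂ) := by
      rw [h1]
      have := ModularForm.qExpansion_smul one_pos one_mem_strictPeriods_SL c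
        (1 : ModularForm 𝒮ℒ 0)
      have h2 : ((1 : ModularForm 𝒮ℒ 0) : ℍ → ℂ) = 1 := by ext z; simp
      rw [h2] at this
      rw [this, qExpansion_one]
    have h0 := congrArg (PowerSeries.coeff 0) (hq.symm.trans hf)
    rw [PowerSeries.coeff_map] at h0
    simp only [PowerSeries.coeff_smul, PowerSeries.coeff_one, if_true, smul_eq_mul,
      mul_one, eq_intCast] at h0
    refine ⟨PowerSeries.coeff 0 f, ?_⟩
    rw [hc, pow_zero, mul_one]
    exact h0
  | succ j ih =>
    intro F f hF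
    have hE : IsL1 (12 * ((j + 1 : ℕ) : ℤ)) ((⇑E₄) ^ (3 * (j + 1)))
        ((1 + 240 * sigmaSeries 3) ^ (3 * (j + 1))) :=
      (isL1_E4.pow (3 * (j + 1))).cast (by push_cast; ring)
    set c0 : ℤ := PowerSeries.coeff 0 f with hc0
    have hG := hF.add (hE.zsmul (-c0))
    obtain ⟨G', hG'fun, hG'q⟩ := hG
    have hg0 : (qExpansion 1 G').coeff 0 = 0 := by
      rw [hG'fun, hG'q, PowerSeries.coeff_map]
      have : PowerSeries.coeff 0 (f + ((-c0 : ℤ) : PowerSeries ℤ) *
          (1 + 240 * sigmaSeries 3) ^ (3 * (j + 1))) = 0 := by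
        simp only [PowerSeries.coeff_zero_eq_constantCoeff, map_add, map_mul, map_pow,
          map_one, map_intCast]
        have h240 : PowerSeries.constantCoeff (sigmaSeries 3) = 0 := by
          rw [← PowerSeries.coeff_zero_eq_constantCoeff_apply]
          simp [sigmaSeries]
        rw [h240]
        simp [hc0]
      rw [this]; simp
    have h3 := qExpansion_eq_qExpansion_discriminant_mul G' hg0
    have h4 : (deltaSeries).map (Int.castRingHom ℂ) *
        qExpansion 1 (CuspForm.discriminantEquiv (toCuspForm G' hg0)) =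
        (f + ((-c0 : ℤ) : PowerSeries ℤ) *
          (1 + 240 * sigmaSeries 3) ^ (3 * (j + 1))).map (Int.castRingHom ℂ) := by
      rw [← qExpansion_discriminant, ← h3, hG'fun, hG'q]
    obtain ⟨g1, hg1⟩ := exists_int_of_delta_mul _ _ h4
    have hG1' : IsL1 (12 * ((j + 1 : ℕ) : ℤ) - 12)
        (⇑(CuspForm.discriminantEquiv (toCuspForm G' hg0))) g1 :=
      ⟨CuspForm.discriminantEquiv (toCuspForm G' hg0), rfl, hg1⟩
    have hG1 : IsL1 (12 * (j : ℤ)) (⇑(CuspForm.discriminantEquiv (toCuspForm G' hg0))) g1 :=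
      hG1'.cast (by push_cast; ring)
    obtain ⟨n, hn⟩ := ih hG1
    refine ⟨n, ?_⟩
    have hval : Δ rho * (CuspForm.discriminantEquiv (toCuspForm G' hg0)) rho = G' rho := by
      rw [discriminant_mul_discriminantEquiv_apply, toCuspForm_apply]
    have hGrho : G' rho = F rho := by
      rw [hG'fun]
      simp [E₄_rho]
    rw [← hGrho, ← hval, hn, pow_succ]
    ring

/-- Dividing by a nonzero integer. -/
theorem IsL1.div_int {k : ℤ} {F : ℍ → ℂ} {f : PowerSeries ℤ} {n : ℤ} (hn : n ≠ 0)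
    (hF : IsL1 k F ((n : PowerSeries ℤ) * f)) : IsL1 k ((n : ℂ)⁻¹ • F) f := by
  refine hF.csmul _ ?_
  ext m
  have hn' : (n : ℂ) ≠ 0 := by exact_mod_cast hn
  rw [map_mul, map_intCast, ← map_intCast (PowerSeries.C : ℂ →+* PowerSeries ℂ),
    PowerSeries.coeff_smul, PowerSeries.coeff_C_mul, smul_eq_mul, ← mul_assoc,
    inv_mul_cancel₀ hn', one_mul]

/-- A level-one form of weight `0` with integral `q`-expansion `f` is the constant `f₀`. -/
theorem IsL1.weight_zero_apply {F : ℍ → ℂ} {f : PowerSeries ℤ} (hF : IsL1 0 F f) (z : ℍ) :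
    F z = (PowerSeries.coeff 0 f : ℤ) := by
  obtain ⟨F', rfl, hf⟩ := hF
  obtain ⟨c, hc⟩ := ModularFormClass.levelOne_weight_zero_const F'
  have h1 : (F' : ℍ → ℂ) = c • (1 : ℍ → ℂ) := by rw [hc]; ext z; simp
  have hq : qExpansion 1 F' = c • (1 : PowerSeries ℂ) := by
    rw [h1]
    have := ModularForm.qExpansion_smul one_pos one_mem_strictPeriods_SL c
      (1 : ModularForm 𝒮ℒ 0)
    have h2 : ((1 : ModularForm 𝒮ℒ 0) : ℍ → ℂ) = 1 := by ext z; simp
    rw [h2] at this
    rw [this, qExpansion_one]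
  have h0 := congrArg (PowerSeries.coeff 0) (hq.symm.trans hf)
  rw [PowerSeries.coeff_map] at h0
  simp only [PowerSeries.coeff_smul, PowerSeries.coeff_one, if_true, smul_eq_mul,
    mul_one, eq_intCast] at h0
  rw [hc]
  exact h0

end Fermat.Agent.S16.H496
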