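import Mathlib
import Fermat.Agent.S16.H496.UV
import Fermat.Agent.S16.H496.L1
import Fermat.Agent.S16.H496.Cong

/-!
# S16 / helper496: the formal trace on the pair ring and its level-one realisation

`tr p k (A, B) = p^(k-1) A + U_p B` is (`p^(k-1)` times) the `q`-expansion of the trace to level
one of a weight-`k` form on `Γ₀(p)` with expansion `A` at `∞` and Fricke expansion `B`.

* `tr_monomial` : `tr (γ^a ε₄^b ε₆^c) = p^(a+4b+6c-1) E₄^b E₆^c S_a`,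
  `S_a = p^a g^a + (-1)^a p U_p((U_p g)^a)`.
* `isL1_Phi` : if every `S_a` is the `q`-expansion of a level-one form `P a` of weight `2a`
  (hypothesis `PowerSumData`), then `tr (γ^a ε₄^b ε₆^c)` is the `q`-expansion of
  `Phi = p^(a+4b+6c-1) E₄^b E₆^c P_a`.
-/

set_option autoImplicit false

namespace Fermat.Agent.S16.H496

open UpperHalfPlane ModularForm EisensteinSeries
open scoped MatrixGroups

local notation "Δ" => ModularForm.discriminant

/-- The formal trace `tr p k (A, B) = p^(k-1) A + U_p B`. -/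
noncomputable def tr (p k : ℕ) : PowerSeries ℤ × PowerSeries ℤ →+ PowerSeries ℤ where
  toFun x := (p : PowerSeries ℤ) ^ (k - 1) * x.1 + Uop p x.2
  map_zero' := by simp
  map_add' x y := by
    simp only [Prod.fst_add, Prod.snd_add, map_add]
    ring

theorem tr_apply (p k : ℕ) (x : PowerSeries ℤ × PowerSeries ℤ) :
    tr p k x = (p : PowerSeries ℤ) ^ (k - 1) * x.1 + Uop p x.2 := rfl

theorem tr_intCast_mul (p k : ℕ) (n : ℤ) (x : PowerSeries ℤ × PowerSeries ℤ) :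
    tr p k ((n : PowerSeries ℤ × PowerSeries ℤ) * x) = (n : PowerSeries ℤ) * tr p k x := by
  rw [tr_apply, tr_apply]
  simp only [Prod.fst_mul, Prod.snd_mul, Prod.fst_intCast, Prod.snd_intCast]
  rw [Uop_intCast_mul]
  ring

/-- The power-sum series `S_a = p^a g^a + (-1)^a p U_p((U_p g)^a)`. -/
noncomputable def Sser (p : ℕ) (g : PowerSeries ℤ) (a : ℕ) : PowerSeries ℤ :=
  (p : PowerSeries ℤ) ^ a * g ^ a + (-1) ^ a * (p : PowerSeries ℤ) * Uop p ((Uop p g) ^ a)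

theorem tr_monomial (p : ℕ) (hp0 : p ≠ 0) (g : PowerSeries ℤ) (k a b c : ℕ)
    (hk : k = 2 * a + 4 * b + 6 * c) (h1 : 1 ≤ a + 4 * b + 6 * c) :
    tr p k (gam p g ^ a * eps4 p ^ b * eps6 p ^ c)
      = (p : PowerSeries ℤ) ^ (a + 4 * b + 6 * c - 1) * (qE4 ^ b * qE6 ^ c * Sser p g a) := by
  obtain ⟨e, he⟩ : ∃ e, a + 4 * b + 6 * c = e + 1 := ⟨a + 4 * b + 6 * c - 1, by omega⟩
  have hk1 : k - 1 = e + a := by omega
  rw [tr_apply, hk1, he, Nat.add_sub_cancel]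
  simp only [gam, eps4, eps6, Prod.fst_mul, Prod.snd_mul, Prod.pow_fst, Prod.pow_snd]
  have h2 : (-(p : PowerSeries ℤ) * Uop p g) ^ a * ((p : PowerSeries ℤ) ^ 4 * Vop p qE4) ^ b *
      ((p : PowerSeries ℤ) ^ 6 * Vop p qE6) ^ c
      = (((-1) ^ a * (p : ℤ) ^ (e + 1) : ℤ) : PowerSeries ℤ) *
        (Vop p qE4 ^ b * (Vop p qE6 ^ c * Uop p g ^ a)) := by
    push_cast
    rw [← he]
    ring
  rw [h2, Uop_intCast_mul, Uop_Vop_pow_mul p hp0, Uop_Vop_pow_mul p hp0, Sser]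
  push_cast
  ring

/-- Hypothesis (PS): the power sums `S_a` are `q`-expansions of level-one forms `P a` of
weight `2a`. -/
def PowerSumData (p : ℕ) (g : PowerSeries ℤ) (P : ℕ → ℍ → ℂ) : Prop :=
  ∀ a : ℕ, IsL1 (2 * (a : ℤ)) (P a) (Sser p g a)

/-- The level-one form with `q`-expansion `tr (γ^a ε₄^b ε₆^c)`. -/
noncomputable def Phi (P : ℕ → ℍ → ℂ) (p a b c : ℕ) : ℍ → ℂ :=
  (((p : ℤ) ^ (a + 4 * b + 6 * c - 1) : ℤ) : ℂ) • ((⇑E₄) ^ b * (⇑E₆) ^ c * P a)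

theorem isL1_Phi (p : ℕ) (hp0 : p ≠ 0) (g : PowerSeries ℤ) (P : ℕ → ℍ → ℂ)
    (hP : PowerSumData p g P) (k a b c : ℕ)
    (hk : k = 2 * a + 4 * b + 6 * c) (h1 : 1 ≤ a + 4 * b + 6 * c) :
    IsL1 (k : ℤ) (Phi P p a b c) (tr p k (gam p g ^ a * eps4 p ^ b * eps6 p ^ c)) := by
  rw [tr_monomial p hp0 g k a b c hk h1]
  have h4 := isL1_E4.pow b
  have h6 := isL1_E6.pow c
  have h := ((h4.mul h6).mul (hP a)).zsmul ((p : ℤ) ^ (a + 4 * b + 6 * c - 1))
  have hw : ((b : ℤ) * 4 + (c : ℤ) * 6 + 2 * (a : ℤ)) = (k : ℤ) := by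
    rw [hk]; push_cast; ring
  have h' := h.cast hw
  refine (h'.congr ?_)
  simp only [qE4, qE6]
  push_cast
  ring

theorem Phi_rho_of_pos (P : ℕ → ℍ → ℂ) (p a b c : ℕ) (hb : 1 ≤ b) :
    Phi P p a b c rho = 0 := by
  simp only [Phi, Pi.smul_apply, Pi.mul_apply, Pi.pow_apply, E₄_rho]
  rw [zero_pow (by omega)]
  simp

theorem Phi_rho_zero (P : ℕ → ℍ → ℂ) (p a c : ℕ) :
    Phi P p a 0 c rho = (((p : ℤ) ^ (a + 6 * c - 1) : ℤ) : ℂ) * (E₆ rho ^ c * P a rho) := by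
  simp only [Phi, Pi.smul_apply, Pi.mul_apply, Pi.pow_apply, pow_zero, one_mul, smul_eq_mul,
    mul_zero, add_zero]

end Fermat.Agent.S16.H496
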