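import Mathlib
import Fermat.Agent.S16.H496.Trace

/-!
# S16 / helper496: step U4 — no weight-2 form on `Γ₀(p)`, `p ≡ 7 mod 8`, is `≡ odd mod 8`

Abstract form: from the single interface `PowerSumData p g P` (the power sums
`p^a g^a + (-1)^a p U_p((U_p g)^a)` are `q`-expansions of level-one forms of weight `2a`)
and `g ≡ s mod 8`, `s` odd, `p ≡ 7 mod 8`, derive `False`.
-/

set_option autoImplicit false

namespace Fermat.Agent.S16.H496

open UpperHalfPlane ModularForm EisensteinSeries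
open scoped MatrixGroups

local notation "Δ" => ModularForm.discriminant
local notation "𝕏" => (PowerSeries ℤ × PowerSeries ℤ)

theorem isL1_sum_Phi (p : ℕ) (hp0 : p ≠ 0) (g : PowerSeries ℤ) (P : ℕ → ℍ → ℂ)
    (hP : PowerSumData p g P) (k : ℕ) (s : Finset ℕ) (n : ℕ → ℤ) (a b c : ℕ → ℕ)
    (hk : ∀ i ∈ s, k = 2 * a i + 4 * b i + 6 * c i)
    (h1 : ∀ i ∈ s, 1 ≤ a i + 4 * b i + 6 * c i) :
    IsL1 (k : ℤ) (∑ i ∈ s, (n i : ℂ) • Phi P p (a i) (b i) (c i))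
      (tr p k (∑ i ∈ s, (n i : 𝕏) * (gam p g ^ (a i) * eps4 p ^ (b i) * eps6 p ^ (c i)))) := by
  rw [map_sum]
  simp_rw [tr_intCast_mul]
  exact IsL1.sum s (fun i hi => (isL1_Phi p hp0 g P hP k (a i) (b i) (c i) (hk i hi)
    (h1 i hi)).zsmul (n i)) (isL1_zero _)

/-- Binomial expansion 1: `(γ² - s² ε₄)^N`. -/
theorem expand1 (p : ℕ) (g : PowerSeries ℤ) (s : ℤ) (N : ℕ) :
    (gam p g ^ 2 - (s : 𝕏) ^ 2 * eps4 p) ^ N
      = ∑ m ∈ Finset.range (N + 1), (((-s ^ 2) ^ (N - m) * (N.choose m : ℤ) : ℤ) : 𝕏) *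
          (gam p g ^ (2 * m) * eps4 p ^ (N - m) * eps6 p ^ 0) := by
  rw [sub_eq_add_neg, add_pow]
  refine Finset.sum_congr rfl fun m _ => ?_
  push_cast
  ring

/-- Binomial expansion 2: `γ^M (γ² - s² ε₄)^M`. -/
theorem expand2 (p : ℕ) (g : PowerSeries ℤ) (s : ℤ) (M : ℕ) :
    gam p g ^ M * (gam p g ^ 2 - (s : 𝕏) ^ 2 * eps4 p) ^ M
      = ∑ m ∈ Finset.range (M + 1), (((-s ^ 2) ^ (M - m) * (M.choose m : ℤ) : ℤ) : 𝕏) *
          (gam p g ^ (M + 2 * m) * eps4 p ^ (M - m) * eps6 p ^ 0) := by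
  rw [sub_eq_add_neg, add_pow, Finset.mul_sum]
  refine Finset.sum_congr rfl fun m _ => ?_
  push_cast
  ring

/-- Binomial expansion 3: `(γ ε₄ - s ε₆)^M`. -/
theorem expand3 (p : ℕ) (g : PowerSeries ℤ) (s : ℤ) (M : ℕ) :
    (gam p g * eps4 p - (s : 𝕏) * eps6 p) ^ M
      = ∑ m ∈ Finset.range (M + 1), (((-s) ^ (M - m) * (M.choose m : ℤ) : ℤ) : 𝕏) *
          (gam p g ^ m * eps4 p ^ m * eps6 p ^ (M - m)) := by
  rw [sub_eq_add_neg, add_pow]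
  refine Finset.sum_congr rfl fun m _ => ?_
  push_cast
  ring

/-- Value at `ρ` of the level-one form attached to expansion 1 or 2: only the `E₄`-free term
survives. -/
theorem sum_Phi_rho_top (P : ℕ → ℍ → ℂ) (p K : ℕ) (n : ℕ → ℤ) (a : ℕ → ℕ) :
    (∑ m ∈ Finset.range (K + 1), (n m : ℂ) • Phi P p (a m) (K - m) 0) rho
      = (n K : ℂ) * Phi P p (a K) 0 0 rho := by
  rw [Finset.sum_apply, Finset.sum_eq_single K]
  · simp
  · intro m hm hne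
    have hlt : m < K := by
      have := Finset.mem_range.mp hm
      omega
    rw [Pi.smul_apply, Phi_rho_of_pos P p (a m) (K - m) 0 (by omega), smul_zero]
  · intro h
    exact absurd (Finset.mem_range.mpr (Nat.lt_succ_self K)) h

/-- Value at `ρ` of the level-one form attached to expansion 3. -/
theorem sum_Phi_rho_bot (P : ℕ → ℍ → ℂ) (p K : ℕ) (n : ℕ → ℤ) :
    (∑ m ∈ Finset.range (K + 1), (n m : ℂ) • Phi P p m m (K - m)) rho
      = (n 0 : ℂ) * Phi P p 0 0 K rho := by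
  rw [Finset.sum_apply, Finset.sum_eq_single 0]
  · simp
  · intro m _ hne
    rw [Pi.smul_apply, Phi_rho_of_pos P p m m (K - m) (by omega), smul_zero]
  · intro h
    exact absurd (Finset.mem_range.mpr (Nat.succ_pos K)) h

/-- **U4, abstract form.** -/
theorem U4_core (p : ℕ) (g : PowerSeries ℤ) (s t r : ℤ) (y : PowerSeries ℤ)
    (hp : (p : ℤ) = 8 * t - 1) (hs : s = 2 * r + 1)
    (hg : g = (s : PowerSeries ℤ) + 8 * y)
    (P : ℕ → ℍ → ℂ) (hP : PowerSumData p g P) : False := by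
  have hp0 : p ≠ 0 := by
    rintro rfl
    simp only [Nat.cast_zero] at hp
    omega
  obtain ⟨μ, κ, w, hμ, hκ, hw⟩ := exists_mu_kappa_w p hp0 g s t r hp hs y hg
  -- the 2-adic valuation of `p + 1`
  obtain ⟨v, m, hm, hv⟩ := Nat.exists_eq_two_pow_mul_odd (Nat.succ_ne_zero p)
  have hv1 : 1 ≤ v := by
    by_contra h
    have hv0 : v = 0 := by omega
    subst hv0
    rw [pow_zero, one_mul] at hv
    obtain ⟨m', hm'⟩ := hm
    have : ((p : ℤ) + 1) = 2 * m' + 1 := by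
      have := congrArg (Nat.cast : ℕ → ℤ) hv
      rw [hm'] at this
      push_cast at this
      simpa using this
    omega
  obtain ⟨u, rfl⟩ : ∃ u, v = u + 1 := ⟨v - 1, by omega⟩
  obtain ⟨j, hj⟩ : ∃ j : ℕ, j = 2 ^ u := ⟨_, rfl⟩
  have hj1 : 1 ≤ j := by rw [hj]; exact Nat.one_le_two_pow
  have hM : 2 ^ (u + 1) = 2 * j := by rw [pow_succ, hj]; ring
  -- the element `D`
  have hdvd : ((2 : ℕ) : 𝕏) ∣ gam p g * μ - κ := ⟨w, by rw [hw]; push_cast; ring⟩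
  obtain ⟨D, hD⟩ := dvd_sub_pow_of_dvd_sub hdvd (u + 1)
  rw [hM] at hD
  push_cast at hD
  -- the three binomial expansions in terms of `μ`, `κ`
  have hx1 : (gam p g ^ 2 - (s : 𝕏) ^ 2 * eps4 p) ^ (3 * j)
      = (((16 : ℤ) ^ (3 * j) : ℤ) : 𝕏) * μ ^ (3 * j) := by
    rw [hμ]; push_cast; ring
  have hx2 : gam p g ^ (2 * j) * (gam p g ^ 2 - (s : 𝕏) ^ 2 * eps4 p) ^ (2 * j)
      = (((16 : ℤ) ^ (2 * j) : ℤ) : 𝕏) * (gam p g * μ) ^ (2 * j) := by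
    rw [hμ]; push_cast; ring
  have hx3 : (gam p g * eps4 p - (s : 𝕏) * eps6 p) ^ (2 * j)
      = (((8 : ℤ) ^ (2 * j) : ℤ) : 𝕏) * κ ^ (2 * j) := by
    rw [hκ]; push_cast; ring
  have hrel : (((8 : ℤ) ^ (2 * j) : ℤ) : 𝕏) *
        (gam p g ^ (2 * j) * (gam p g ^ 2 - (s : 𝕏) ^ 2 * eps4 p) ^ (2 * j))
      - (((16 : ℤ) ^ (2 * j) : ℤ) : 𝕏) * (gam p g * eps4 p - (s : 𝕏) * eps6 p) ^ (2 * j)
      = (((8 : ℤ) ^ (2 * j) * (16 : ℤ) ^ (2 * j) * 2 ^ (u + 1 + 1) : ℤ) : 𝕏) * D := by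
    rw [hx2, hx3]
    push_cast
    linear_combination ((8 : 𝕏) ^ (2 * j) * (16 : 𝕏) ^ (2 * j)) * hD
  -- level-one forms
  have h1 := isL1_sum_Phi p hp0 g P hP (12 * j) (Finset.range (3 * j + 1))
    (fun m => (-s ^ 2) ^ (3 * j - m) * ((3 * j).choose m : ℤ)) (fun m => 2 * m)
    (fun m => 3 * j - m) (fun _ => 0)
    (by intro i hi; have := Finset.mem_range.mp hi; omega)
    (by intro i hi; have := Finset.mem_range.mp hi; omega)
  beta_reduce at h1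
  rw [← expand1, hx1, tr_intCast_mul] at h1
  have h1' := IsL1.div_int (pow_ne_zero _ (by norm_num)) h1
  obtain ⟨n1, hn1⟩ := (h1'.cast (show ((12 * j : ℕ) : ℤ) = 12 * (j : ℤ) by push_cast; ring)).exists_int_rho j
  have h2 := isL1_sum_Phi p hp0 g P hP (12 * j) (Finset.range (2 * j + 1))
    (fun m => (-s ^ 2) ^ (2 * j - m) * ((2 * j).choose m : ℤ)) (fun m => 2 * j + 2 * m)
    (fun m => 2 * j - m) (fun _ => 0)
    (by intro i hi; have := Finset.mem_range.mp hi; omega)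
    (by intro i hi; have := Finset.mem_range.mp hi; omega)
  beta_reduce at h2
  rw [← expand2] at h2
  have h3 := isL1_sum_Phi p hp0 g P hP (12 * j) (Finset.range (2 * j + 1))
    (fun m => (-s) ^ (2 * j - m) * ((2 * j).choose m : ℤ)) (fun m => m)
    (fun m => m) (fun m => 2 * j - m)
    (by intro i hi; have := Finset.mem_range.mp hi; omega)
    (by intro i hi; have := Finset.mem_range.mp hi; omega)
  beta_reduce at h3
  rw [← expand3] at h3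
  have hc := (h2.zsmul ((8 : ℤ) ^ (2 * j))).add (h3.zsmul (-(16 : ℤ) ^ (2 * j)))
  have htr := congrArg (tr p (12 * j)) hrel
  rw [map_sub, tr_intCast_mul, tr_intCast_mul, tr_intCast_mul] at htr
  have hc' := hc.congr (show _ = (((8 : ℤ) ^ (2 * j) * (16 : ℤ) ^ (2 * j) * 2 ^ (u + 1 + 1) : ℤ) :
      PowerSeries ℤ) * tr p (12 * j) D by
    rw [← htr]; push_cast; ring)
  have hcne : ((8 : ℤ) ^ (2 * j) * (16 : ℤ) ^ (2 * j) * 2 ^ (u + 1 + 1) : ℤ) ≠ 0 := by positivity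
  have hc'' := IsL1.div_int hcne hc'
  obtain ⟨n2, hn2⟩ := (hc''.cast (show ((12 * j : ℕ) : ℤ) = 12 * (j : ℤ) by push_cast; ring)).exists_int_rho j
  clear h1 h1' h2 h3 hc hc' hc'' htr hrel hx1 hx2 hx3 hD hμ hκ hw
  have hd : Δ rho ^ j ≠ 0 := pow_ne_zero _ discriminant_rho_ne_zero
  -- values at `ρ`
  have hP0 : P 0 rho = ((1 + (p : ℤ) : ℤ) : ℂ) := by
    have h0 := (hP 0).cast (show 2 * ((0 : ℕ) : ℤ) = 0 by simp)
    rw [h0.weight_zero_apply rho]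
    congr 1
    simp [Sser, Uop_one p hp0]
  have hF1 := sum_Phi_rho_top P p (3 * j)
    (fun m => (-s ^ 2) ^ (3 * j - m) * ((3 * j).choose m : ℤ)) (fun m => 2 * m)
  have hF2 := sum_Phi_rho_top P p (2 * j)
    (fun m => (-s ^ 2) ^ (2 * j - m) * ((2 * j).choose m : ℤ)) (fun m => 2 * j + 2 * m)
  have hF3 := sum_Phi_rho_bot P p (2 * j)
    (fun m => (-s) ^ (2 * j - m) * ((2 * j).choose m : ℤ))
  beta_reduce at hF1 hF2 hF3
  have hE6 : E₆ rho ^ (2 * j) = (-1728 : ℂ) ^ j * Δ rho ^ j := by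
    rw [pow_mul, E₆_rho_sq, mul_pow]
  have e1 : 2 * (3 * j) + 6 * 0 - 1 = 6 * j - 1 := by omega
  have e2 : 2 * j + 2 * (2 * j) + 6 * 0 - 1 = 6 * j - 1 := by omega
  have e3 : 0 + 6 * (2 * j) - 1 = 12 * j - 1 := by omega
  have e4 : 2 * j + 2 * (2 * j) = 2 * (3 * j) := by ring
  rw [Pi.smul_apply, hF1, Phi_rho_zero, e1] at hn1
  rw [Pi.smul_apply, Pi.add_apply, Pi.smul_apply, Pi.smul_apply, hF2, hF3, Phi_rho_zero,
    Phi_rho_zero, hP0, e2, e3, e4, hE6] at hn2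
  simp only [Nat.sub_self, pow_zero, Nat.choose_self, Nat.cast_one, mul_one, one_mul,
    Int.cast_one, Nat.sub_zero, Nat.choose_zero_right, smul_eq_mul] at hn1 hn2
  generalize P (2 * (3 * j)) rho = Q at hn1 hn2
  generalize Δ rho ^ j = d at hn1 hn2 hd
  have ha : (((16 : ℤ) ^ (3 * j) : ℤ) : ℂ) ≠ 0 := by
    exact_mod_cast pow_ne_zero _ (by norm_num : (16 : ℤ) ≠ 0)
  have hcc : (((8 : ℤ) ^ (2 * j) * (16 : ℤ) ^ (2 * j) * 2 ^ (u + 1 + 1) : ℤ) : ℂ) ≠ 0 := by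
    exact_mod_cast hcne
  have h1c : (((p : ℤ) ^ (6 * j - 1) : ℤ) : ℂ) * Q
      = (((16 : ℤ) ^ (3 * j) : ℤ) : ℂ) * (n1 * d) := by
    rw [← hn1, mul_inv_cancel_left₀ ha]
  have h2c : (((8 : ℤ) ^ (2 * j) : ℤ) : ℂ) * ((((p : ℤ) ^ (6 * j - 1) : ℤ) : ℂ) * Q) +
      (((-(16 : ℤ) ^ (2 * j)) : ℤ) : ℂ) * ((((-s) ^ (2 * j) : ℤ) : ℂ) *
        ((((p : ℤ) ^ (12 * j - 1) : ℤ) : ℂ) * ((-1728 : ℂ) ^ j * d * ((1 + (p : ℤ) : ℤ) : ℂ))))
      = (((8 : ℤ) ^ (2 * j) * (16 : ℤ) ^ (2 * j) * 2 ^ (u + 1 + 1) : ℤ) : ℂ) * (n2 * d) := by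
    rw [← hn2, mul_inv_cancel_left₀ hcc]
  have key : (((8 : ℤ) ^ (2 * j) * (16 : ℤ) ^ (3 * j) * n1
      - (16 : ℤ) ^ (2 * j) * (-s) ^ (2 * j) * (p : ℤ) ^ (12 * j - 1) * (-1728) ^ j * (1 + (p : ℤ))
      - (8 : ℤ) ^ (2 * j) * (16 : ℤ) ^ (2 * j) * 2 ^ (u + 1 + 1) * n2 : ℤ) : ℂ) * d = 0 := by
    have h2c' := h2c
    rw [h1c] at h2c'
    push_cast at h2c' ⊢
    linear_combination h2c'
  have hZ := Int.cast_eq_zero.mp ((mul_eq_zero.mp key).resolve_right hd)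
  -- 2-adic bookkeeping
  have h8 : (8 : ℤ) ^ (2 * j) = 2 ^ (6 * j) := by
    rw [show (8 : ℤ) = 2 ^ 3 by norm_num, ← pow_mul]; congr 1; ring
  have h16a : (16 : ℤ) ^ (3 * j) = 2 ^ (12 * j) := by
    rw [show (16 : ℤ) = 2 ^ 4 by norm_num, ← pow_mul]; congr 1; ring
  have h16b : (16 : ℤ) ^ (2 * j) = 2 ^ (8 * j) := by
    rw [show (16 : ℤ) = 2 ^ 4 by norm_num, ← pow_mul]; congr 1; ring
  have h1728 : (-1728 : ℤ) ^ j = (-27) ^ j * 2 ^ (6 * j) := by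
    rw [show (-1728 : ℤ) = (-27) * 2 ^ 6 by norm_num, mul_pow, ← pow_mul]
  have hp1 : (1 + (p : ℤ)) = 2 ^ (u + 1) * (m : ℤ) := by
    have := congrArg (Nat.cast : ℕ → ℤ) hv
    push_cast at this
    rw [← this]; ring
  have hlt : u + 2 < 2 ^ (u + 2) := Nat.lt_two_pow_self
  have h4j : 4 * j = 2 ^ (u + 2) := by rw [hj]; ring
  obtain ⟨e, he⟩ : ∃ e, 4 * j = (u + 2) + e := ⟨4 * j - (u + 2), by omega⟩
  have h18 : (2 : ℤ) ^ (12 * j) = 2 ^ (8 * j) * (2 ^ (u + 2) * 2 ^ e) := by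
    rw [← pow_add, ← pow_add]; congr 1; omega
  rw [h8, h16a, h16b, h1728, hp1, h18] at hZ
  set T : ℤ := (-s) ^ (2 * j) * (p : ℤ) ^ (12 * j - 1) * (-27) ^ j with hT
  have hTodd : Odd T := by
    have hs' : Odd (-s) := by
      rw [hs]; exact ⟨-r - 1, by ring⟩
    have hp' : Odd (p : ℤ) := by
      rw [hp]; exact ⟨4 * t - 1, by ring⟩
    exact ((hs'.pow).mul (hp'.pow)).mul (Odd.pow ⟨-14, by norm_num⟩)
  have hmodd : Odd (m : ℤ) := by
    obtain ⟨m', hm'⟩ := hm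
    exact ⟨m', by rw [hm']; push_cast; ring⟩
  have hfin : (2 : ℤ) ^ (6 * j) * 2 ^ (8 * j) * 2 ^ (u + 1) *
      (2 * 2 ^ e * n1 - T * m - 2 * n2) = 0 := by
    rw [hT]
    linear_combination hZ
  have hne : (2 : ℤ) ^ (6 * j) * 2 ^ (8 * j) * 2 ^ (u + 1) ≠ 0 := by positivity
  have h0 := (mul_eq_zero.mp hfin).resolve_left hne
  have hev : Even (T * m) := ⟨2 ^ e * n1 - n2, by linear_combination -h0⟩
  exact (Int.not_even_iff_odd.mpr (hTodd.mul hmodd)) hev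

end Fermat.Agent.S16.H496
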